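/-
S58 / block EC-R (helper21): reduction of points of a Weierstrass curve modulo a valuation subring.

Setting: `K` a field, `A : ValuationSubring K`, `k` a field, `r : ↥A →+* k` a ring homomorphism
killing the maximal ideal (e.g. the residue map).  `W : Affine K` and `Wk : Affine k` are bare
curves related by `CurveRed A r W Wk` (coefficients of `W` lie in `A` and reduce to those of `Wk`).

This file: definitions (`CurveRed`, `redFun`, `InE0`), integrality of `y`, and the key
integrality statement for sums (`add_some_integral`).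
-/
import Mathlib
import Fermat.Agent.S05.KernelGeneral
import Fermat.Agent.S05.SameRed

set_option autoImplicit false

namespace Fermat.Agent.S58.EC.Red.Basic

open WeierstrassCurve WeierstrassCurve.Affine

section Abstract

/-! ### Slopes under an arbitrary ring homomorphism to a field -/

variable {R : Type*} [CommRing R] {F : Type*} [Field F] [DecidableEq F] (f : R →+* F)
  (W : WeierstrassCurve R)

/-- The second numerator of the slope. -/
def slopeNum (x₁ x₂ y₁ : R) : R :=
  x₁ ^ 2 + x₁ * x₂ + x₂ ^ 2 + W.a₂ * (x₁ + x₂) + W.a₄ - W.a₁ * y₁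

/-- The second denominator of the slope. -/
def slopeDen (x₂ y₁ y₂ : R) : R := y₁ - W.toAffine.negY x₂ y₂

theorem slope_identity {x₁ y₁ x₂ y₂ : R} (h₁ : W.toAffine.Equation x₁ y₁)
    (h₂ : W.toAffine.Equation x₂ y₂) :
    (y₁ - y₂) * slopeDen W x₂ y₁ y₂ = (x₁ - x₂) * slopeNum W x₁ x₂ y₁ := by
  rw [Affine.equation_iff] at h₁ h₂
  simp only [slopeDen, slopeNum, Affine.negY]
  linear_combination h₁ - h₂

omit [DecidableEq F] in
theorem map_slopeDen (x₂ y₁ y₂ : R) :
    f (slopeDen W x₂ y₁ y₂) = f y₁ - (W.map f).toAffine.negY (f x₂) (f y₂) := by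
  rw [slopeDen, map_sub, Affine.map_negY]

/-- Chord slope: if `f x₁ ≠ f x₂` and `ℓ * (x₁ - x₂) = y₁ - y₂`, then `f ℓ` is the slope. -/
theorem map_slope_of_X_ne {x₁ y₁ x₂ y₂ ℓ : R} (hx : f x₁ ≠ f x₂)
    (hℓ : ℓ * (x₁ - x₂) = y₁ - y₂) :
    f ℓ = (W.map f).toAffine.slope (f x₁) (f x₂) (f y₁) (f y₂) := by
  rw [Affine.slope_of_X_ne hx, eq_div_iff (sub_ne_zero.mpr hx), ← map_sub, ← map_sub, ← map_mul,
    hℓ]

/-- Second formula: if `f (y₁ - negY x₂ y₂) ≠ 0` and `ℓ * (y₁ - negY x₂ y₂) = slopeNum`, then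
`f ℓ` is the slope (chord or tangent). -/
theorem map_slope_of_den_ne {x₁ y₁ x₂ y₂ ℓ : R} (h₁ : W.toAffine.Equation x₁ y₁)
    (h₂ : W.toAffine.Equation x₂ y₂) (hd : f (slopeDen W x₂ y₁ y₂) ≠ 0)
    (hℓ : ℓ * slopeDen W x₂ y₁ y₂ = slopeNum W x₁ x₂ y₁) :
    f ℓ = (W.map f).toAffine.slope (f x₁) (f x₂) (f y₁) (f y₂) := by
  have hid := congrArg f (slope_identity W h₁ h₂)
  simp only [map_mul, map_sub] at hid
  have hℓ' := congrArg f hℓ
  rw [map_mul] at hℓ'
  by_cases hx : f x₁ = f x₂
  · -- tangent case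
    rw [hx, sub_self, zero_mul] at hid
    have hy : f y₁ = f y₂ := by
      rcases mul_eq_zero.mp hid with h | h
      · exact sub_eq_zero.mp h
      · exact absurd h hd
    have hd' : f y₁ ≠ (W.map f).toAffine.negY (f x₂) (f y₂) := by
      rw [map_slopeDen] at hd
      exact sub_ne_zero.mp hd
    rw [Affine.slope_of_Y_ne hx hd', eq_div_iff]
    · have e1 : f y₁ - (W.map f).toAffine.negY (f x₁) (f y₁) = f (slopeDen W x₂ y₁ y₂) := by
        rw [map_slopeDen, hx, hy]
      rw [e1, hℓ']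
      simp only [slopeNum, map_sub, map_add, map_mul, map_pow, hx, WeierstrassCurve.map_a₁,
        WeierstrassCurve.map_a₂, WeierstrassCurve.map_a₄]
      ring
    · rw [hx, hy]
      rw [hy] at hd'
      exact sub_ne_zero.mpr hd'
  · rw [Affine.slope_of_X_ne hx, eq_div_iff (sub_ne_zero.mpr hx)]
    have h3 : f ℓ * (f x₁ - f x₂) * f (slopeDen W x₂ y₁ y₂) =
        (f y₁ - f y₂) * f (slopeDen W x₂ y₁ y₂) := by
      rw [hid, mul_right_comm, hℓ']
      ring
    exact mul_right_cancel₀ hd h3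

end Abstract

variable {K : Type*} [Field K] {A : ValuationSubring K} {k : Type*} [Field k]

/-- `W` has coefficients in `A` and reduces to `Wk` along `r`: both come from one curve over
`↥A`. -/
def CurveRed (A : ValuationSubring K) (r : ↥A →+* k) (W : Affine K) (Wk : Affine k) : Prop :=
  ∃ WA : WeierstrassCurve ↥A, WA.map A.subtype = W ∧ WA.map r = Wk

theorem CurveRed.integralAt {r : ↥A →+* k} {W : Affine K} {Wk : Affine k}
    (hW : CurveRed A r W Wk) : Fermat.Agent.S05.IntegralAt W A := by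
  obtain ⟨WA, rfl, rfl⟩ := hW
  exact ⟨by simp, by simp, by simp, by simp, by simp⟩

/-- The hypothesis on `r`: it kills the maximal ideal. -/
def KillsMax (r : ↥A →+* k) : Prop :=
  ∀ a : ↥A, a ∈ IsLocalRing.maximalIdeal ↥A → r a = 0

theorem killsMax_residue : KillsMax (IsLocalRing.residue ↥A) := fun _ ha =>
  (IsLocalRing.residue_eq_zero_iff _).mpr ha

theorem KillsMax.isUnit {r : ↥A →+* k} (hr : KillsMax r) {a : ↥A} (h : r a ≠ 0) : IsUnit a := by
  by_contra hu
  exact h (hr a ((IsLocalRing.mem_maximalIdeal a).mpr hu))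

theorem map_ne_zero_of_isUnit (r : ↥A →+* k) {a : ↥A} (h : IsUnit a) : r a ≠ 0 :=
  (h.map r).ne_zero

theorem KillsMax.map_eq_zero_iff {r : ↥A →+* k} (hr : KillsMax r) (a : ↥A) :
    r a = 0 ↔ a ∈ IsLocalRing.maximalIdeal ↥A := by
  refine ⟨fun h => ?_, hr a⟩
  rw [IsLocalRing.mem_maximalIdeal]
  exact fun hu => map_ne_zero_of_isUnit r hu h

/-- Integrality of `y`. -/
theorem y_mem_of_equation (WA : WeierstrassCurve ↥A) {x y : K}
    (h : (WA.map A.subtype).toAffine.Equation x y) (hx : x ∈ A) : y ∈ A := by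
  by_contra hy
  have hy0 : y ≠ 0 := fun h0 => hy (h0 ▸ A.zero_mem)
  have hinv : y⁻¹ ∈ A := (A.mem_or_inv_mem y).resolve_left hy
  rw [Affine.equation_iff] at h
  simp only [WeierstrassCurve.map_a₁, WeierstrassCurve.map_a₂, WeierstrassCurve.map_a₃,
    WeierstrassCurve.map_a₄, WeierstrassCurve.map_a₆, ValuationSubring.subtype_apply] at h
  have e : y = (x ^ 3 + (WA.a₂ : K) * x ^ 2 + (WA.a₄ : K) * x + (WA.a₆ : K)) * y⁻¹
      - ((WA.a₁ : K) * x + (WA.a₃ : K)) := by
    field_simp
    linear_combination h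
  apply hy
  rw [e]
  refine sub_mem (mul_mem ?_ hinv) ?_
  · exact add_mem (add_mem (add_mem (pow_mem hx 3)
      (mul_mem (SetLike.coe_mem _) (pow_mem hx 2))) (mul_mem (SetLike.coe_mem _) hx))
      (SetLike.coe_mem _)
  · exact add_mem (mul_mem (SetLike.coe_mem _) hx) (SetLike.coe_mem _)

theorem y_mem_of_equation' {r : ↥A →+* k} {W : Affine K} {Wk : Affine k}
    (hW : CurveRed A r W Wk) {x y : K} (h : W.Equation x y) (hx : x ∈ A) : y ∈ A := by
  obtain ⟨WA, rfl, rfl⟩ := hW
  exact y_mem_of_equation WA h hx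

/-- An integral solution over `K` gives a solution over `↥A`. -/
theorem equation_of_coe (WA : WeierstrassCurve ↥A) {x y : ↥A}
    (h : (WA.map A.subtype).toAffine.Equation (x : K) y) : WA.toAffine.Equation x y :=
  (Affine.map_equation (W := WA.toAffine) (f := A.subtype) Subtype.val_injective x y).mp h

/-- The reduction of an integral solution is a solution. -/
theorem equation_red (r : ↥A →+* k) (WA : WeierstrassCurve ↥A) {x y : ↥A}
    (h : (WA.map A.subtype).toAffine.Equation (x : K) y) :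
    (WA.map r).toAffine.Equation (r x) (r y) :=
  Affine.Equation.map r (equation_of_coe WA h)

section Add

variable [DecidableEq K] [DecidableEq k] {r : ↥A →+* k}

/-- **Integrality of the sum**: if `P, Q` are integral points whose reductions (as pairs in `k²`)
are not opposite, the chord/tangent slope is integral, `P + Q` is integral and its coordinates
reduce to the coordinates given by the addition formulas on the reduced curve. -/
theorem add_some_integral (hr : KillsMax r) (WA : WeierstrassCurve ↥A) {x₁ y₁ x₂ y₂ : ↥A}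
    (h₁ : (WA.map A.subtype).toAffine.Nonsingular (x₁ : K) y₁)
    (h₂ : (WA.map A.subtype).toAffine.Nonsingular (x₂ : K) y₂)
    (hxy : ¬ (r x₁ = r x₂ ∧ r y₁ = (WA.map r).toAffine.negY (r x₂) (r y₂))) :
    ∃ (x₃ y₃ : ↥A) (h₃ : (WA.map A.subtype).toAffine.Nonsingular (x₃ : K) y₃),
      Point.some _ _ h₁ + Point.some _ _ h₂ = Point.some _ _ h₃ ∧
      r x₃ = (WA.map r).toAffine.addX (r x₁) (r x₂)
        ((WA.map r).toAffine.slope (r x₁) (r x₂) (r y₁) (r y₂)) ∧
      r y₃ = (WA.map r).toAffine.addY (r x₁) (r x₂) (r y₁)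
        ((WA.map r).toAffine.slope (r x₁) (r x₂) (r y₁) (r y₂)) := by
  have e₁ := equation_of_coe WA h₁.1
  have e₂ := equation_of_coe WA h₂.1
  -- the slope is integral
  obtain ⟨ℓ, hℓK, hℓk⟩ : ∃ ℓ : ↥A,
      A.subtype ℓ = (WA.map A.subtype).toAffine.slope (A.subtype x₁) (A.subtype x₂)
        (A.subtype y₁) (A.subtype y₂) ∧
      r ℓ = (WA.map r).toAffine.slope (r x₁) (r x₂) (r y₁) (r y₂) := by
    by_cases hx : r x₁ = r x₂
    · have hy : r y₁ ≠ (WA.map r).toAffine.negY (r x₂) (r y₂) := fun h => hxy ⟨hx, h⟩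
      have hd : r (slopeDen WA x₂ y₁ y₂) ≠ 0 := by
        rw [map_slopeDen]; exact sub_ne_zero.mpr hy
      have hu := hr.isUnit hd
      refine ⟨slopeNum WA x₁ x₂ y₁ * ↑hu.unit⁻¹, ?_, ?_⟩
      · refine map_slope_of_den_ne A.subtype WA e₁ e₂ ?_ ?_
        · rw [Ne, map_eq_zero_iff _ Subtype.val_injective]
          exact hu.ne_zero
        · rw [mul_assoc, IsUnit.val_inv_mul, mul_one]
      · refine map_slope_of_den_ne r WA e₁ e₂ hd ?_
        rw [mul_assoc, IsUnit.val_inv_mul, mul_one]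
    · have hd : r (x₁ - x₂) ≠ 0 := by rw [map_sub]; exact sub_ne_zero.mpr hx
      have hu := hr.isUnit hd
      refine ⟨(y₁ - y₂) * ↑hu.unit⁻¹, ?_, ?_⟩
      · refine map_slope_of_X_ne A.subtype WA ?_ ?_
        · intro h
          exact hx (congrArg r (Subtype.val_injective h))
        · rw [mul_assoc, IsUnit.val_inv_mul, mul_one]
      · refine map_slope_of_X_ne r WA hx ?_
        rw [mul_assoc, IsUnit.val_inv_mul, mul_one]
  have hxyK : ¬ ((x₁ : K) = x₂ ∧ (y₁ : K) = (WA.map A.subtype).toAffine.negY (x₂ : K) y₂) := by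
    rintro ⟨hx, hy⟩
    apply hxy
    have hx' : x₁ = x₂ := Subtype.val_injective hx
    have hy' : y₁ = WA.toAffine.negY x₂ y₂ := by
      apply Subtype.val_injective
      rw [hy]
      exact Affine.map_negY (W' := WA.toAffine) A.subtype x₂ y₂
    refine ⟨congrArg r hx', ?_⟩
    rw [hy', Affine.map_negY]
  refine ⟨WA.toAffine.addX x₁ x₂ ℓ, WA.toAffine.addY x₁ x₂ y₁ ℓ, ?_, ?_, ?_, ?_⟩
  · have := Affine.nonsingular_add h₁ h₂ hxyK
    simp only [ValuationSubring.subtype_apply] at hℓK
    rw [← hℓK] at this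
    have e1 := Affine.map_addX (W' := WA.toAffine) A.subtype x₁ x₂ ℓ
    have e2 := Affine.map_addY (W' := WA.toAffine) A.subtype x₁ y₁ x₂ ℓ
    simp only [ValuationSubring.subtype_apply] at e1 e2
    rw [← e1, ← e2]
    exact this
  · rw [Point.add_some hxyK]
    simp only [ValuationSubring.subtype_apply] at hℓK
    have e1 := Affine.map_addX (W' := WA.toAffine) A.subtype x₁ x₂ ℓ
    have e2 := Affine.map_addY (W' := WA.toAffine) A.subtype x₁ y₁ x₂ ℓ
    simp only [ValuationSubring.subtype_apply] at e1 e2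
    congr 1
    · rw [← hℓK, e1]
    · rw [← hℓK, e2]
  · rw [← hℓk]; exact (Affine.map_addX (W' := WA.toAffine) r x₁ x₂ ℓ).symm
  · rw [← hℓk]; exact (Affine.map_addY (W' := WA.toAffine) r x₁ y₁ x₂ ℓ).symm

end Add

section Defs

variable (A) (r : ↥A →+* k) (W : Affine K) (Wk : Affine k)

/-- `(x, y)` is integral and its reduction is a nonsingular point of `Wk`. -/
def GoodRed (x y : K) : Prop :=
  ∃ (hx : x ∈ A) (hy : y ∈ A), Wk.Nonsingular (r ⟨x, hx⟩) (r ⟨y, hy⟩)

open Classical in
/-- The reduction map, as a total function: points with nonintegral `x` and points with singular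
reduction go to `0`. -/
noncomputable def redFun : W.Point → Wk.Point
  | .zero => 0
  | .some x y _ =>
    if h : GoodRed A r Wk x y then
      .some (r ⟨x, h.choose⟩) (r ⟨y, h.choose_spec.choose⟩) h.choose_spec.choose_spec
    else 0

/-- `P` is `0`, or in the kernel of reduction, or has nonsingular reduction. -/
def InE0 : W.Point → Prop
  | .zero => True
  | .some x y _ => x ∉ A ∨ GoodRed A r Wk x y

variable {A r W Wk}

@[simp] theorem redFun_zero : redFun A r W Wk 0 = 0 := rfl

theorem redFun_some_of_goodRed {x y : K} (h : W.Nonsingular x y) (hx : x ∈ A) (hy : y ∈ A)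
    (hns : Wk.Nonsingular (r ⟨x, hx⟩) (r ⟨y, hy⟩)) :
    redFun A r W Wk (.some x y h) = .some _ _ hns := by
  have hg : GoodRed A r Wk x y := ⟨hx, hy, hns⟩
  simp only [redFun, dif_pos hg]

theorem redFun_coe {x y : ↥A} (h : W.Nonsingular (x : K) y) (hns : Wk.Nonsingular (r x) (r y)) :
    redFun A r W Wk (.some (x : K) y h) = .some _ _ hns :=
  redFun_some_of_goodRed h x.2 y.2 hns

theorem redFun_some_of_not_goodRed {x y : K} (h : W.Nonsingular x y)
    (hg : ¬ GoodRed A r Wk x y) : redFun A r W Wk (.some x y h) = 0 := by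
  simp only [redFun, dif_neg hg]

theorem not_goodRed_of_not_mem {x y : K} (hx : x ∉ A) : ¬ GoodRed A r Wk x y :=
  fun h => hx h.choose

theorem redFun_some_of_not_mem {x y : K} (h : W.Nonsingular x y) (hx : x ∉ A) :
    redFun A r W Wk (.some x y h) = 0 :=
  redFun_some_of_not_goodRed h (not_goodRed_of_not_mem hx)

@[simp] theorem inE0_zero : InE0 A r W Wk 0 := trivial

theorem inE0_some_iff {x y : K} (h : W.Nonsingular x y) :
    InE0 A r W Wk (.some x y h) ↔ x ∉ A ∨ GoodRed A r Wk x y := Iff.rfl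

theorem goodRed_coe_iff {x y : ↥A} :
    GoodRed A r Wk (x : K) y ↔ Wk.Nonsingular (r x) (r y) :=
  ⟨fun ⟨_, _, h⟩ => h, fun h => ⟨x.2, y.2, h⟩⟩

theorem inE1_some_iff {x y : K} (h : W.Nonsingular x y) :
    Fermat.Agent.S05.Asm.InE1 A (Point.some x y h) ↔ x ∉ A := by
  constructor
  · rintro (h0 | ⟨x', y', h', he, hx'⟩)
    · exact absurd h0 (Point.some_ne_zero h)
    · have := (Point.some.injEq ..).mp he
      rw [this.1]; exact hx'
  · intro hx
    exact Or.inr ⟨x, y, h, rfl, hx⟩

theorem inE0_of_inE1 {P : W.Point} (hP : Fermat.Agent.S05.Asm.InE1 A P) : InE0 A r W Wk P := by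
  rcases P with _ | ⟨x, y, h⟩
  · trivial
  · exact Or.inl ((inE1_some_iff h).mp hP)

theorem redFun_of_inE1 {P : W.Point} (hP : Fermat.Agent.S05.Asm.InE1 A P) :
    redFun A r W Wk P = 0 := by
  rcases P with _ | ⟨x, y, h⟩
  · rfl
  · exact redFun_some_of_not_mem h ((inE1_some_iff h).mp hP)

/-- On `E0`, the reduction vanishes exactly on the kernel of reduction. -/
theorem redFun_eq_zero_iff {P : W.Point} (hP : InE0 A r W Wk P) :
    redFun A r W Wk P = 0 ↔ Fermat.Agent.S05.Asm.InE1 A P := by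
  refine ⟨fun h0 => ?_, redFun_of_inE1⟩
  rcases P with _ | ⟨x, y, h⟩
  · exact Or.inl rfl
  · rw [inE1_some_iff]
    rcases hP with hx | ⟨hx, hy, hns⟩
    · exact hx
    · rw [redFun_some_of_goodRed h hx hy hns] at h0
      exact absurd h0 (Point.some_ne_zero hns)

end Defs

end Fermat.Agent.S58.EC.Red.Basic
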