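/-
S58 / block EC-R (helper21): the reduction map is a group homomorphism on `E0`.

`E0 hr hW : AddSubgroup W.Point`, `E1 hW : AddSubgroup W.Point`, `red hr hW : E0 hr hW →+ Wk.Point`
with `red P = redFun P` and kernel `E1`.
-/
import Mathlib
import Fermat.Agent.S58.EC.Red.Basic

set_option autoImplicit false

namespace Fermat.Agent.S58.EC.Red.Add

open WeierstrassCurve WeierstrassCurve.Affine Fermat.Agent.S58.EC.Red.Basic
open Fermat.Agent.S05

variable {K : Type*} [Field K] [DecidableEq K] {A : ValuationSubring K} {k : Type*} [Field k]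
  [DecidableEq k] {r : ↥A →+* k} {W : Affine K} {Wk : Affine k}

omit [DecidableEq K] [DecidableEq k] in
theorem some_congr {F : Type*} [CommRing F] {V : Affine F} {x y x' y' : F} (h : V.Nonsingular x y)
    (hx : x = x') (hy : y = y') : ∃ h' : V.Nonsingular x' y', Point.some x y h = Point.some x' y' h' := by
  subst hx hy
  exact ⟨h, rfl⟩

omit [DecidableEq K] [DecidableEq k] in
theorem some_eq_some {F : Type*} [CommRing F] {V : Affine F} {x y x' y' : F} (h : V.Nonsingular x y)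
    (h' : V.Nonsingular x' y') (hx : x = x') (hy : y = y') :
    Point.some x y h = Point.some x' y' h' := by
  subst hx hy
  rfl

/-! ### Negation -/

omit [DecidableEq K] [DecidableEq k] in
theorem goodRed_neg (hW : CurveRed A r W Wk) {x y : K} (hg : GoodRed A r Wk x y) :
    GoodRed A r Wk x (W.negY x y) := by
  obtain ⟨WA, rfl, rfl⟩ := hW
  obtain ⟨hx, hy, hns⟩ := hg
  have e : (WA.map A.subtype).toAffine.negY x y = ((WA.toAffine.negY ⟨x, hx⟩ ⟨y, hy⟩ : ↥A) : K) :=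
    Affine.map_negY (W' := WA.toAffine) A.subtype ⟨x, hx⟩ ⟨y, hy⟩
  refine ⟨hx, e ▸ SetLike.coe_mem _, ?_⟩
  have e2 : (⟨(WA.map A.subtype).toAffine.negY x y, e ▸ SetLike.coe_mem _⟩ : ↥A) =
      WA.toAffine.negY ⟨x, hx⟩ ⟨y, hy⟩ := Subtype.ext e
  rw [e2, ← Affine.map_negY]
  exact (Affine.nonsingular_neg ..).mpr hns

omit [DecidableEq K] [DecidableEq k] in
theorem inE0_neg (hW : CurveRed A r W Wk) {P : W.Point} (hP : InE0 A r W Wk P) :
    InE0 A r W Wk (-P) := by
  rcases P with _ | ⟨x, y, h⟩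
  · exact hP
  · rw [Point.neg_some, inE0_some_iff]
    rcases hP with hx | hg
    · exact Or.inl hx
    · exact Or.inr (goodRed_neg hW hg)

omit [DecidableEq K] in
theorem redFun_neg (hW : CurveRed A r W Wk) (P : W.Point) :
    redFun A r W Wk (-P) = -redFun A r W Wk P := by
  rcases P with _ | ⟨x, y, h⟩
  · rfl
  · rw [Point.neg_some]
    by_cases hg : GoodRed A r Wk x y
    · have hg' := goodRed_neg hW hg
      obtain ⟨hx, hy, hns⟩ := hg
      obtain ⟨hx', hy', hns'⟩ := hg'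
      rw [redFun_some_of_goodRed _ hx hy hns, redFun_some_of_goodRed _ hx' hy' hns',
        Point.neg_some]
      refine some_eq_some _ _ rfl ?_
      obtain ⟨WA, rfl, rfl⟩ := hW
      have e : (WA.map A.subtype).toAffine.negY x y =
          ((WA.toAffine.negY ⟨x, hx⟩ ⟨y, hy⟩ : ↥A) : K) :=
        Affine.map_negY (W' := WA.toAffine) A.subtype ⟨x, hx⟩ ⟨y, hy⟩
      have e2 : (⟨(WA.map A.subtype).toAffine.negY x y, hy'⟩ : ↥A) =
          WA.toAffine.negY ⟨x, hx⟩ ⟨y, hy⟩ := Subtype.ext e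
      rw [e2, ← Affine.map_negY]
    · have hg' : ¬ GoodRed A r Wk x (W.negY x y) := by
        intro hg'
        apply hg
        have := goodRed_neg hW hg'
        rwa [Affine.negY_negY] at this
      rw [redFun_some_of_not_goodRed _ hg, redFun_some_of_not_goodRed _ hg', neg_zero]

/-! ### Addition: the case of two points with good reduction -/

theorem redFun_add_good (hr : KillsMax r) (hW : CurveRed A r W Wk) {x₁ y₁ x₂ y₂ : K}
    (h₁ : W.Nonsingular x₁ y₁) (h₂ : W.Nonsingular x₂ y₂)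
    (g₁ : GoodRed A r Wk x₁ y₁) (g₂ : GoodRed A r Wk x₂ y₂) :
    InE0 A r W Wk (Point.some x₁ y₁ h₁ + Point.some x₂ y₂ h₂) ∧
      redFun A r W Wk (Point.some x₁ y₁ h₁ + Point.some x₂ y₂ h₂) =
        redFun A r W Wk (Point.some x₁ y₁ h₁) + redFun A r W Wk (Point.some x₂ y₂ h₂) := by
  have hint := hW.integralAt
  obtain ⟨WA, rfl, rfl⟩ := hW
  obtain ⟨hx₁, hy₁, n₁⟩ := g₁
  obtain ⟨hx₂, hy₂, n₂⟩ := g₂
  obtain ⟨x₁, rfl⟩ : ∃ a : ↥A, (a : K) = x₁ := ⟨⟨x₁, hx₁⟩, rfl⟩
  obtain ⟨y₁, rfl⟩ : ∃ a : ↥A, (a : K) = y₁ := ⟨⟨y₁, hy₁⟩, rfl⟩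
  obtain ⟨x₂, rfl⟩ : ∃ a : ↥A, (a : K) = x₂ := ⟨⟨x₂, hx₂⟩, rfl⟩
  obtain ⟨y₂, rfl⟩ : ∃ a : ↥A, (a : K) = y₂ := ⟨⟨y₂, hy₂⟩, rfl⟩
  change (WA.map r).toAffine.Nonsingular (r x₁) (r y₁) at n₁
  change (WA.map r).toAffine.Nonsingular (r x₂) (r y₂) at n₂
  rw [redFun_coe h₁ n₁, redFun_coe h₂ n₂]
  by_cases hxy : r x₁ = r x₂ ∧ r y₁ = (WA.map r).toAffine.negY (r x₂) (r y₂)
  · -- opposite reductions: the sum is in the kernel of reduction
    rw [Point.add_of_Y_eq hxy.1 hxy.2]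
    have hE1 : Asm.InE1 A (Point.some _ _ h₁ + Point.some _ _ h₂) := by
      rw [Asm.inE1_iff_sameRed]
      have h₂' : (WA.map A.subtype).toAffine.Nonsingular (x₂ : K)
          ((WA.map A.subtype).toAffine.negY (x₂ : K) y₂) := (Affine.nonsingular_neg ..).mpr h₂
      have key := SameRed.inE1_sub (WA.map A.subtype).toAffine A hint.a₁ hint.a₂ hint.a₃
        (x := x₁) (y := y₁) (x' := x₂) (y' := (WA.map A.subtype).toAffine.negY (x₂ : K) y₂)
        h₁ h₂' x₁.2 x₂.2 ?_ ?_ ?_ ?_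
      · have e : Point.some _ _ h₁ - Point.some _ _ h₂' = Point.some _ _ h₁ + Point.some _ _ h₂ := by
          rw [sub_eq_add_neg, Point.neg_some]
          congr 1
          exact some_eq_some _ _ rfl (Affine.negY_negY ..)
        rwa [e] at key
      · have e := Affine.map_negY (W' := WA.toAffine) A.subtype x₂ y₂
        rw [ValuationSubring.subtype_apply, ValuationSubring.subtype_apply] at e
        rw [e]; exact SetLike.coe_mem _
      · have : ((x₁ - x₂ : ↥A) : K) ∈ A.nonunits := by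
          rw [ValuationSubring.coe_mem_nonunits_iff, ← hr.map_eq_zero_iff, map_sub, hxy.1, sub_self]
        simpa using this
      · have e := Affine.map_negY (W' := WA.toAffine) A.subtype x₂ y₂
        rw [ValuationSubring.subtype_apply, ValuationSubring.subtype_apply] at e
        have : ((y₁ - WA.toAffine.negY x₂ y₂ : ↥A) : K) ∈ A.nonunits := by
          rw [ValuationSubring.coe_mem_nonunits_iff, ← hr.map_eq_zero_iff, map_sub, hxy.2,
            ← Affine.map_negY, sub_self]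
        rw [e]
        simpa using this
      · rintro ⟨c1, c2⟩
        rw [Affine.nonsingular_iff'] at n₁
        have e3 : ((3 : ↥A) : K) = 3 := rfl
        have e2 : ((2 : ↥A) : K) = 2 := rfl
        have d1 : ((WA.a₁ * y₁ - (3 * x₁ ^ 2 + 2 * WA.a₂ * x₁ + WA.a₄) : ↥A) : K) ∈ A.nonunits := by
          simpa [e3, e2] using c1
        have d2 : ((2 * y₁ + WA.a₁ * x₁ + WA.a₃ : ↥A) : K) ∈ A.nonunits := by
          simpa [e2] using c2
        rw [ValuationSubring.coe_mem_nonunits_iff, ← hr.map_eq_zero_iff] at d1 d2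
        rcases n₁.2 with h3 | h3
        · apply h3
          simpa [map_ofNat] using d1
        · apply h3
          simpa [map_ofNat] using d2
    exact ⟨inE0_of_inE1 hE1, redFun_of_inE1 hE1⟩
  · obtain ⟨x₃, y₃, h₃, hsum, hx₃, hy₃⟩ := add_some_integral hr WA h₁ h₂ hxy
    have n₃ := Affine.nonsingular_add n₁ n₂ hxy
    have n₃' : (WA.map r).toAffine.Nonsingular (r x₃) (r y₃) := by rw [hx₃, hy₃]; exact n₃
    rw [hsum, Point.add_some hxy]
    refine ⟨Or.inr (goodRed_coe_iff.mpr n₃'), ?_⟩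
    rw [redFun_coe h₃ n₃']
    exact some_eq_some _ _ hx₃ hy₃

/-! ### Addition: one summand in the kernel of reduction -/

theorem redFun_add_ker_good (hr : KillsMax r) (hW : CurveRed A r W Wk) {x₁ y₁ x₂ y₂ : K}
    (h₁ : W.Nonsingular x₁ y₁) (h₂ : W.Nonsingular x₂ y₂)
    (hx₁ : x₁ ∉ A) (g₂ : GoodRed A r Wk x₂ y₂) :
    InE0 A r W Wk (Point.some x₁ y₁ h₁ + Point.some x₂ y₂ h₂) ∧
      redFun A r W Wk (Point.some x₁ y₁ h₁ + Point.some x₂ y₂ h₂) =
        redFun A r W Wk (Point.some x₂ y₂ h₂) := by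
  have hint := hW.integralAt
  -- the sum is not in the kernel of reduction
  have hR : ¬ Asm.InE1 A (Point.some x₁ y₁ h₁ + Point.some x₂ y₂ h₂) := by
    intro hR
    have hnP : Asm.InE1 A (-Point.some x₁ y₁ h₁) := by
      rw [Point.neg_some, inE1_some_iff]; exact hx₁
    have := KernelGeneral.inE1_add A hint _ _ hR hnP
    rw [add_neg_cancel_comm, inE1_some_iff] at this
    exact this g₂.choose
  rcases hsum : Point.some x₁ y₁ h₁ + Point.some x₂ y₂ h₂ with _ | ⟨x₃, y₃, h₃⟩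
  · rw [hsum] at hR
    exact absurd (Or.inl rfl) hR
  rw [hsum, inE1_some_iff, not_not] at hR
  have hy₃ : y₃ ∈ A := y_mem_of_equation' hW h₃.1 hR
  obtain ⟨WA, rfl, rfl⟩ := hW
  obtain ⟨hx₂, hy₂, n₂⟩ := g₂
  obtain ⟨x₂, rfl⟩ : ∃ a : ↥A, (a : K) = x₂ := ⟨⟨x₂, hx₂⟩, rfl⟩
  obtain ⟨y₂, rfl⟩ : ∃ a : ↥A, (a : K) = y₂ := ⟨⟨y₂, hy₂⟩, rfl⟩
  obtain ⟨x₃, rfl⟩ : ∃ a : ↥A, (a : K) = x₃ := ⟨⟨x₃, hR⟩, rfl⟩
  obtain ⟨y₃, rfl⟩ : ∃ a : ↥A, (a : K) = y₃ := ⟨⟨y₃, hy₃⟩, rfl⟩
  change (WA.map r).toAffine.Nonsingular (r x₂) (r y₂) at n₂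
  -- the point `-Q`
  have eneg : (WA.map A.subtype).toAffine.negY (x₂ : K) y₂ = ((WA.toAffine.negY x₂ y₂ : ↥A) : K) :=
    Affine.map_negY (W' := WA.toAffine) A.subtype x₂ y₂
  have h₂' : (WA.map A.subtype).toAffine.Nonsingular (x₂ : K) ((WA.toAffine.negY x₂ y₂ : ↥A) : K) := by
    rw [← eneg]; exact (Affine.nonsingular_neg ..).mpr h₂
  have hnegQ : -Point.some _ _ h₂ = Point.some _ _ h₂' := by
    rw [Point.neg_some]
    exact some_eq_some _ _ rfl eneg
  have hP : Point.some _ _ h₃ + Point.some _ _ h₂' = Point.some x₁ y₁ h₁ := by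
    rw [← hsum, ← hnegQ, add_neg_cancel_right]
  have hxy : r x₃ = r x₂ ∧ r y₃ = (WA.map r).toAffine.negY (r x₂) (r (WA.toAffine.negY x₂ y₂)) := by
    by_contra hxy
    obtain ⟨x, y, h, hs, -, -⟩ := add_some_integral hr WA h₃ h₂' hxy
    rw [hP] at hs
    have := (Point.some.injEq ..).mp hs
    exact hx₁ (this.1 ▸ x.2)
  have hy : r y₃ = r y₂ := by
    rw [hxy.2, ← Affine.map_negY, Affine.negY_negY]
  have n₃ : (WA.map r).toAffine.Nonsingular (r x₃) (r y₃) := by rw [hxy.1, hy]; exact n₂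
  refine ⟨Or.inr (goodRed_coe_iff.mpr n₃), ?_⟩
  rw [redFun_coe h₃ n₃, redFun_coe h₂ n₂]
  exact some_eq_some _ _ hxy.1 hy

/-! ### The main theorem -/

/-- **Reduction is additive on `E0`** (and `E0` is closed under addition). -/
theorem redFun_add (hr : KillsMax r) (hW : CurveRed A r W Wk) {P Q : W.Point}
    (hP : InE0 A r W Wk P) (hQ : InE0 A r W Wk Q) :
    InE0 A r W Wk (P + Q) ∧
      redFun A r W Wk (P + Q) = redFun A r W Wk P + redFun A r W Wk Q := by
  rcases P with _ | ⟨x₁, y₁, h₁⟩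
  · change InE0 A r W Wk (0 + Q) ∧ redFun A r W Wk (0 + Q) = 0 + redFun A r W Wk Q
    rw [zero_add, zero_add]
    exact ⟨hQ, rfl⟩
  rcases Q with _ | ⟨x₂, y₂, h₂⟩
  · change InE0 A r W Wk (_ + 0) ∧ redFun A r W Wk (_ + 0) = redFun A r W Wk _ + 0
    rw [add_zero, add_zero]
    exact ⟨hP, rfl⟩
  rcases hP with hx₁ | g₁
  · rcases hQ with hx₂ | g₂
    · have hE1 : Asm.InE1 A (Point.some x₁ y₁ h₁ + Point.some x₂ y₂ h₂) :=
        KernelGeneral.inE1_add A hW.integralAt _ _ ((inE1_some_iff h₁).mpr hx₁)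
          ((inE1_some_iff h₂).mpr hx₂)
      refine ⟨inE0_of_inE1 hE1, ?_⟩
      rw [redFun_of_inE1 hE1, redFun_some_of_not_mem h₁ hx₁, redFun_some_of_not_mem h₂ hx₂,
        add_zero]
    · have := redFun_add_ker_good hr hW h₁ h₂ hx₁ g₂
      refine ⟨this.1, ?_⟩
      rw [this.2, redFun_some_of_not_mem h₁ hx₁, zero_add]
  · rcases hQ with hx₂ | g₂
    · have := redFun_add_ker_good hr hW h₂ h₁ hx₂ g₁
      rw [add_comm] at this
      refine ⟨this.1, ?_⟩
      rw [this.2, redFun_some_of_not_mem h₂ hx₂, add_zero]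
    · exact redFun_add_good hr hW h₁ h₂ g₁ g₂

/-! ### The subgroups `E0`, `E1` and the homomorphism `red` -/

/-- The kernel of reduction, as a subgroup. -/
def E1 (hW : CurveRed A r W Wk) : AddSubgroup W.Point where
  carrier := {P | Asm.InE1 A P}
  zero_mem' := Or.inl rfl
  add_mem' hP hQ := KernelGeneral.inE1_add A hW.integralAt _ _ hP hQ
  neg_mem' {P} hP := by
    rcases P with _ | ⟨x, y, h⟩
    · exact hP
    · change Asm.InE1 A (-Point.some x y h)
      rw [Point.neg_some, inE1_some_iff]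
      exact (inE1_some_iff h).mp hP

/-- Points with nonsingular reduction (including the kernel of reduction), as a subgroup. -/
def E0 (hr : KillsMax r) (hW : CurveRed A r W Wk) : AddSubgroup W.Point where
  carrier := {P | InE0 A r W Wk P}
  zero_mem' := trivial
  add_mem' hP hQ := (redFun_add hr hW hP hQ).1
  neg_mem' hP := inE0_neg hW hP

omit [DecidableEq k] in
theorem mem_E1_iff (hW : CurveRed A r W Wk) {P : W.Point} : P ∈ E1 hW ↔ Asm.InE1 A P := Iff.rfl

theorem mem_E0_iff (hr : KillsMax r) (hW : CurveRed A r W Wk) {P : W.Point} :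
    P ∈ E0 hr hW ↔ InE0 A r W Wk P := Iff.rfl

theorem E1_le_E0 (hr : KillsMax r) (hW : CurveRed A r W Wk) : E1 hW ≤ E0 hr hW :=
  fun _ hP => inE0_of_inE1 hP

/-- **The reduction homomorphism** `E0 →+ Wk.Point`. -/
noncomputable def red (hr : KillsMax r) (hW : CurveRed A r W Wk) : E0 hr hW →+ Wk.Point where
  toFun P := redFun A r W Wk P
  map_zero' := rfl
  map_add' P Q := (redFun_add hr hW P.2 Q.2).2

@[simp] theorem red_apply (hr : KillsMax r) (hW : CurveRed A r W Wk) (P : E0 hr hW) :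
    red hr hW P = redFun A r W Wk P := rfl

/-- The kernel of `red` is the kernel of reduction `E1`. -/
theorem red_eq_zero_iff (hr : KillsMax r) (hW : CurveRed A r W Wk) (P : E0 hr hW) :
    red hr hW P = 0 ↔ (P : W.Point) ∈ E1 hW :=
  redFun_eq_zero_iff P.2

theorem ker_red (hr : KillsMax r) (hW : CurveRed A r W Wk) :
    (red hr hW).ker = (E1 hW).addSubgroupOf (E0 hr hW) := by
  ext P
  rw [AddMonoidHom.mem_ker, red_eq_zero_iff, AddSubgroup.mem_addSubgroupOf]

/-- Additivity of `redFun` for sums and multiples, on `E0`. -/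
theorem redFun_nsmul (hr : KillsMax r) (hW : CurveRed A r W Wk) {P : W.Point}
    (hP : InE0 A r W Wk P) (n : ℕ) : redFun A r W Wk (n • P) = n • redFun A r W Wk P := by
  have := map_nsmul (red hr hW) n ⟨P, hP⟩
  simpa using this

theorem redFun_zsmul (hr : KillsMax r) (hW : CurveRed A r W Wk) {P : W.Point}
    (hP : InE0 A r W Wk P) (n : ℤ) : redFun A r W Wk (n • P) = n • redFun A r W Wk P := by
  have := map_zsmul (red hr hW) n ⟨P, hP⟩
  simpa using this

theorem redFun_sub (hr : KillsMax r) (hW : CurveRed A r W Wk) {P Q : W.Point}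
    (hP : InE0 A r W Wk P) (hQ : InE0 A r W Wk Q) :
    redFun A r W Wk (P - Q) = redFun A r W Wk P - redFun A r W Wk Q := by
  have := map_sub (red hr hW) ⟨P, hP⟩ ⟨Q, hQ⟩
  simpa using this

/-- Good reduction: if the reduced curve is nonsingular, every point is in `E0`. -/
theorem E0_eq_top (hr : KillsMax r) (hW : CurveRed A r W Wk) (hΔ : Wk.Δ ≠ 0) :
    E0 hr hW = ⊤ := by
  rw [eq_top_iff]
  rintro P -
  rcases P with _ | ⟨x, y, h⟩
  · trivial
  · by_cases hx : x ∈ A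
    · refine Or.inr ?_
      have hy := y_mem_of_equation' hW h.1 hx
      refine ⟨hx, hy, ?_⟩
      rw [← Affine.equation_iff_nonsingular_of_Δ_ne_zero hΔ]
      obtain ⟨WA, rfl, rfl⟩ := hW
      exact equation_red r WA (x := ⟨x, hx⟩) (y := ⟨y, hy⟩) h.1
    · exact Or.inl hx

end Fermat.Agent.S58.EC.Red.Add
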