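/-
S58 / block EC-R (helper21): the kernel of reduction `E1`.

* `E1` has no `m`-torsion for every integer `m` which is a unit of `A` (ANY residue characteristic,
  including `2`): `ΨSq_m` has leading coefficient `m²`, a unit, so a root of it is integral.
* `red` is injective on the `m`-torsion of `E0`.
* `E1` is `m`-divisible (`K` algebraically closed, `Δ ≠ 0`, `m` a unit of `A`): the sum of the
  roots of `Φ_m - x(Q) ΨSq_m` is not in `A`, so some root is not in `A`.
-/
import Mathlib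
import Fermat.Agent.S58.EC.Red.Add
import Fermat.Agent.Tors.DivPoly
import Fermat.Agent.S58.EC.TorsionCount

set_option autoImplicit false

namespace Fermat.Agent.S58.EC.Red.Kernel

open WeierstrassCurve WeierstrassCurve.Affine Polynomial
open Fermat.Agent.S58.EC.Red.Basic Fermat.Agent.S58.EC.Red.Add
open Fermat.Agent.S05 Fermat.Agent.Tors Fermat.Agent.S58.EC.TorsionCount

variable {K : Type*} [Field K] {A : ValuationSubring K}

/-- A root in `K` of a polynomial over `↥A` with unit leading coefficient lies in `A`. -/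
theorem mem_of_root (p : (↥A)[X]) (hu : IsUnit p.leadingCoeff) {x : K}
    (hx : (p.map A.subtype).eval x = 0) : x ∈ A := by
  have hmonic : (C (↑hu.unit⁻¹ : ↥A) * p).Monic :=
    monic_C_mul_of_mul_leadingCoeff_eq_one (IsUnit.val_inv_mul hu)
  have hint : IsIntegral ↥A x := by
    refine ⟨C (↑hu.unit⁻¹ : ↥A) * p, hmonic, ?_⟩
    rw [eval₂_mul, eval₂_C]
    have : eval₂ (algebraMap ↥A K) x p = (p.map A.subtype).eval x := by
      rw [eval_map]; rfl
    rw [this, hx, mul_zero]
  obtain ⟨y, hy⟩ := IsIntegrallyClosed.isIntegral_iff.mp hint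
  rw [← hy]
  exact y.2

variable {k : Type*} [Field k] {r : ↥A →+* k} {W : Affine K} {Wk : Affine k} [DecidableEq K]

/-- **The kernel of reduction has no `m`-torsion** for `m` a unit of `A`. -/
theorem eq_zero_of_inE1_of_zsmul_eq_zero (hW : CurveRed A r W Wk) {m : ℤ}
    (hm : IsUnit ((m : ℤ) : ↥A)) {P : W.Point} (hP : Asm.InE1 A P) (hmP : m • P = 0) : P = 0 := by
  rcases P with _ | ⟨x, y, h⟩
  · rfl
  · exfalso
    have hx : x ∉ A := (inE1_some_iff h).mp hP
    obtain ⟨WA, rfl, rfl⟩ := hW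
    rw [zsmul_eq_zero_iff_ΨSq h m] at hmP
    apply hx
    have e : (WA.map A.subtype).toAffine.ΨSq m = (WA.ΨSq m).map A.subtype := WA.map_ΨSq A.subtype m
    rw [e] at hmP
    refine mem_of_root (WA.ΨSq m) ?_ hmP
    rw [WA.leadingCoeff_ΨSq hm.ne_zero]
    exact hm.pow 2

theorem eq_zero_of_inE1_of_nsmul_eq_zero (hW : CurveRed A r W Wk) {m : ℕ}
    (hm : IsUnit ((m : ℕ) : ↥A)) {P : W.Point} (hP : Asm.InE1 A P) (hmP : m • P = 0) : P = 0 := by
  refine eq_zero_of_inE1_of_zsmul_eq_zero hW (m := (m : ℤ)) ?_ hP ?_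
  · simpa using hm
  · rw [natCast_zsmul]; exact hmP

omit [DecidableEq K] in
/-- A natural number which is nonzero in `k` is a unit of `A`. -/
theorem isUnit_natCast_of_ne_zero (hr : KillsMax r) {m : ℕ} (hm : (m : k) ≠ 0) :
    IsUnit ((m : ℕ) : ↥A) := by
  apply hr.isUnit
  rwa [map_natCast]

variable [DecidableEq k]

omit [DecidableEq k] in
/-- **Injectivity of reduction on torsion**: a point of `E0` killed by `m` (a unit of `A`) with
trivial reduction is `0`. -/
theorem eq_zero_of_redFun_eq_zero (hW : CurveRed A r W Wk) {m : ℕ}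
    (hm : IsUnit ((m : ℕ) : ↥A)) {P : W.Point} (hP : InE0 A r W Wk P) (hmP : m • P = 0)
    (h0 : redFun A r W Wk P = 0) : P = 0 :=
  eq_zero_of_inE1_of_nsmul_eq_zero hW hm ((redFun_eq_zero_iff hP).mp h0) hmP

/-- Injectivity of `red` on the `m`-torsion of `E0`. -/
theorem red_injOn_torsion (hr : KillsMax r) (hW : CurveRed A r W Wk) {m : ℕ}
    (hm : IsUnit ((m : ℕ) : ↥A)) {P Q : E0 hr hW} (hP : m • P = 0) (hQ : m • Q = 0)
    (h : red hr hW P = red hr hW Q) : P = Q := by
  have h0 : red hr hW (P - Q) = 0 := by rw [map_sub, h, sub_self]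
  have hPQ : m • (P - Q) = 0 := by rw [smul_sub, hP, hQ, sub_self]
  have hPQ' : m • ((P - Q : E0 hr hW) : W.Point) = 0 := by
    have := congrArg (fun X : E0 hr hW => (X : W.Point)) hPQ
    simpa using this
  have := eq_zero_of_redFun_eq_zero hW hm (P - Q).2 hPQ' h0
  have h1 : P - Q = 0 := Subtype.ext this
  exact sub_eq_zero.mp h1

omit [DecidableEq k] in
/-- **Divisibility of the kernel of reduction**: over an algebraically closed field, for `m > 0` a
unit of `A`, every point of `E1` is `m` times a point of `E1`. -/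
theorem exists_inE1_nsmul_eq [IsAlgClosed K] (hW : CurveRed A r W Wk) (hΔ : W.Δ ≠ 0) {m : ℕ}
    (hm0 : 0 < m) (hm : IsUnit ((m : ℕ) : ↥A)) {Q : W.Point} (hQ : Asm.InE1 A Q) :
    ∃ P : W.Point, Asm.InE1 A P ∧ m • P = Q := by
  by_cases hQ0 : Q = 0
  · exact ⟨0, Or.inl rfl, by rw [hQ0, smul_zero]⟩
  obtain ⟨x₁, y₁, h₁, rfl⟩ : ∃ x y, ∃ h : W.Nonsingular x y, Q = Point.some x y h :=
    exists_some_of_ne_zero hQ0
  have hx₁ : x₁ ∉ A := (inE1_some_iff h₁).mp hQ
  -- the fibre polynomial is monic of degree `m²` and its next coefficient is not in `A`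
  set F := fibrePoly W m x₁ with hF
  have hdeg : F.natDegree = m ^ 2 := natDegree_fibrePoly W hm0 x₁
  have hpos : 0 < m ^ 2 := by positivity
  have hmonic : F.Monic := by
    rw [Monic, leadingCoeff, hdeg, hF, fibrePoly, coeff_sub, coeff_Φ_nat]
    have : (C x₁ * W.ΨSq (m : ℤ)).coeff (m ^ 2) = 0 := by
      apply coeff_eq_zero_of_natDegree_lt
      have := natDegree_C_mul_ΨSq_lt W hm0 x₁
      rwa [natDegree_Φ_nat] at this
    rw [this, sub_zero]
  have hnext : F.nextCoeff ∉ A := by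
    rw [nextCoeff_of_natDegree_pos (by rw [hdeg]; exact hpos), hdeg, hF, fibrePoly, coeff_sub,
      coeff_C_mul, coeff_ΨSq_nat]
    obtain ⟨WA, rfl, rfl⟩ := hW
    have e : (WA.map A.subtype).toAffine.Φ (m : ℤ) = (WA.Φ (m : ℤ)).map A.subtype :=
      WA.map_Φ A.subtype m
    rw [e, coeff_map]
    intro hmem
    apply hx₁
    have h1 : x₁ * (m : K) ^ 2 ∈ A := by
      have := sub_mem (SetLike.coe_mem ((WA.Φ (m : ℤ)).coeff (m ^ 2 - 1))) hmem
      simpa using this
    have hu : IsUnit (((m : ℕ) : ↥A) ^ 2) := hm.pow 2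
    have h2 : x₁ = x₁ * (m : K) ^ 2 * ((↑hu.unit⁻¹ : ↥A) : K) := by
      have h3 : ((((m : ℕ) : ↥A) ^ 2 * ↑hu.unit⁻¹ : ↥A) : K) = 1 := by
        rw [IsUnit.mul_val_inv]; rfl
      have h4 : (m : K) ^ 2 * ((↑hu.unit⁻¹ : ↥A) : K) = 1 := by
        rw [← h3]; push_cast; rfl
      rw [mul_assoc, h4, mul_one]
    rw [h2]
    exact mul_mem h1 (SetLike.coe_mem _)
  -- hence some root is not in `A`
  have hsplit : F.Splits := IsAlgClosed.splits F
  have hsum : F.roots.sum ∉ A := by
    rw [hsplit.nextCoeff_eq_neg_sum_roots_of_monic hmonic] at hnext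
    intro h
    exact hnext (neg_mem h)
  obtain ⟨x, hxroot, hxA⟩ : ∃ x ∈ F.roots, x ∉ A := by
    by_contra hcon
    push Not at hcon
    exact hsum (multiset_sum_mem _ hcon)
  have hxev : (fibrePoly W m (xc (Point.some x₁ y₁ h₁))).eval x = 0 := by
    have := (mem_roots hmonic.ne_zero).mp hxroot
    simpa [hF] using this
  obtain ⟨P, hP0, hxP, hmP⟩ := exists_point_of_root hΔ hQ0 hxev
  refine ⟨P, ?_, hmP⟩
  obtain ⟨x', y', h', rfl⟩ : ∃ x y, ∃ h : W.Nonsingular x y, P = Point.some x y h :=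
    exists_some_of_ne_zero hP0
  rw [inE1_some_iff]
  rw [xc_some] at hxP
  rw [hxP]; exact hxA

end Fermat.Agent.S58.EC.Red.Kernel
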