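/-
S58 / block EC-R (helper21): Galois equivariance of the reduction map.

`Induces A r σ τ`: the field automorphism `σ` of `K` preserves `A` and induces `τ` on `k` along
`r`.  Then `redFun (σ • P) = Point.map τ (redFun P)`; for `τ = id` (inertia) `redFun (σ • P) =
redFun P`.  Instances: elements of the inertia group (`τ = id`), Frobenius elements
(`τ = (· ^ ℓ)`, `r` the residue map).
-/
import Mathlib
import Fermat.Agent.S58.EC.Red.Add
import Fermat.Agent.S05.Inertia
import Fermat.Agent.S05.GoodBad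
import Fermat.Prelude.Def_EllipticCurve_FrobeniusTrace

set_option autoImplicit false

namespace Fermat.Agent.S58.EC.Red.Equivariant

open WeierstrassCurve WeierstrassCurve.Affine
open Fermat.Agent.S58.EC.Red.Basic Fermat.Agent.S58.EC.Red.Add
open Fermat.Agent.S05

variable {K : Type*} [Field K] {A : ValuationSubring K} {k : Type*} [Field k] {r : ↥A →+* k}

/-- `σ` preserves `A` and induces `τ` on `k` along `r`. -/
structure Induces (A : ValuationSubring K) (r : ↥A →+* k) (σ : K → K) (τ : k → k) : Prop where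
  mem_iff : ∀ a : K, σ a ∈ A ↔ a ∈ A
  comm : ∀ (a : K) (ha : a ∈ A) (ha' : σ a ∈ A), r ⟨σ a, ha'⟩ = τ (r ⟨a, ha⟩)

variable [DecidableEq K] {R S : Type*} [CommRing R] [CommRing S] [Algebra R S] [Algebra R K]
  [Algebra S K] [IsScalarTower R S K] {W' : Affine R}

omit [DecidableEq K] in
theorem goodRed_apply_iff_of_id {Wk : Affine k} {σ : K → K} (hσ : Induces A r σ id) {x y : K} :
    GoodRed A r Wk (σ x) (σ y) ↔ GoodRed A r Wk x y := by
  constructor
  · rintro ⟨hx', hy', hns⟩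
    have hx := (hσ.mem_iff x).mp hx'
    have hy := (hσ.mem_iff y).mp hy'
    refine ⟨hx, hy, ?_⟩
    rw [hσ.comm x hx hx', hσ.comm y hy hy'] at hns
    exact hns
  · rintro ⟨hx, hy, hns⟩
    have hx' := (hσ.mem_iff x).mpr hx
    have hy' := (hσ.mem_iff y).mpr hy
    refine ⟨hx', hy', ?_⟩
    rw [hσ.comm x hx hx', hσ.comm y hy hy']
    exact hns

/-- **Inertia form**: if `σ` induces the identity on `k`, reduction is `σ`-invariant. -/
theorem redFun_smul_of_id {Wk : Affine k} (σ : K ≃ₐ[S] K) (hσ : Induces A r σ id)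
    (P : (W'⁄K).Point) :
    redFun A r (W'⁄K) Wk (σ • P) = redFun A r (W'⁄K) Wk P := by
  rcases P with _ | ⟨x, y, h⟩
  · rfl
  · rw [Inertia.smul_some]
    by_cases hg : GoodRed A r Wk x y
    · have hg' := (goodRed_apply_iff_of_id hσ).mpr hg
      obtain ⟨hx, hy, hns⟩ := hg
      obtain ⟨hx', hy', hns'⟩ := hg'
      rw [redFun_some_of_goodRed _ hx hy hns, redFun_some_of_goodRed _ hx' hy' hns']
      exact some_eq_some _ _ (hσ.comm x hx hx') (hσ.comm y hy hy')
    · have hg' : ¬ GoodRed A r Wk (σ x) (σ y) := fun h' => hg ((goodRed_apply_iff_of_id hσ).mp h')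
      rw [redFun_some_of_not_goodRed _ hg, redFun_some_of_not_goodRed _ hg']

theorem inE0_smul_iff_of_id {Wk : Affine k} (σ : K ≃ₐ[S] K) (hσ : Induces A r σ id)
    (P : (W'⁄K).Point) :
    InE0 A r (W'⁄K) Wk (σ • P) ↔ InE0 A r (W'⁄K) Wk P := by
  rcases P with _ | ⟨x, y, h⟩
  · exact Iff.rfl
  · rw [Inertia.smul_some, inE0_some_iff, inE0_some_iff, goodRed_apply_iff_of_id hσ,
      hσ.mem_iff]

theorem inE1_smul_iff {σ : K ≃ₐ[S] K} (hσ : ∀ a : K, σ a ∈ A ↔ a ∈ A) (P : (W'⁄K).Point) :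
    Asm.InE1 A (σ • P) ↔ Asm.InE1 A P := by
  rcases P with _ | ⟨x, y, h⟩
  · exact Iff.rfl
  · rw [Inertia.smul_some, inE1_some_iff, inE1_some_iff, hσ]

section Frobenius

variable {R₂ S₂ : Type*} [CommRing R₂] [CommRing S₂] [Algebra R₂ S₂] [Algebra R₂ k]
  [Algebra S₂ k] [IsScalarTower R₂ S₂ k] {W₂ : Affine R₂}

omit [DecidableEq K] in
theorem goodRed_apply_iff {σ : K → K} (τ : k →ₐ[S₂] k) (hσ : Induces A r σ τ) {x y : K} :
    GoodRed A r (W₂⁄k) (σ x) (σ y) ↔ GoodRed A r (W₂⁄k) x y := by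
  constructor
  · rintro ⟨hx', hy', hns⟩
    have hx := (hσ.mem_iff x).mp hx'
    have hy := (hσ.mem_iff y).mp hy'
    refine ⟨hx, hy, ?_⟩
    rw [hσ.comm x hx hx', hσ.comm y hy hy'] at hns
    exact (W₂.baseChange_nonsingular τ.injective ..).mp hns
  · rintro ⟨hx, hy, hns⟩
    have hx' := (hσ.mem_iff x).mpr hx
    have hy' := (hσ.mem_iff y).mpr hy
    refine ⟨hx', hy', ?_⟩
    rw [hσ.comm x hx hx', hσ.comm y hy hy']
    exact (W₂.baseChange_nonsingular τ.injective ..).mpr hns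

variable [DecidableEq k]

/-- **Frobenius form**: if `σ` induces `τ` on `k`, then `redFun (σ • P) = τ (redFun P)`. -/
theorem redFun_smul (σ : K ≃ₐ[S] K) (τ : k →ₐ[S₂] k) (hσ : Induces A r σ τ)
    (P : (W'⁄K).Point) :
    redFun A r (W'⁄K) (W₂⁄k) (σ • P) = Point.map τ (redFun A r (W'⁄K) (W₂⁄k) P) := by
  rcases P with _ | ⟨x, y, h⟩
  · rfl
  · rw [Inertia.smul_some]
    by_cases hg : GoodRed A r (W₂⁄k) x y
    · have hg' := (goodRed_apply_iff τ hσ).mpr hg
      obtain ⟨hx, hy, hns⟩ := hg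
      obtain ⟨hx', hy', hns'⟩ := hg'
      rw [redFun_some_of_goodRed _ hx hy hns, redFun_some_of_goodRed _ hx' hy' hns',
        Point.map_some]
      exact some_eq_some _ _ (hσ.comm x hx hx') (hσ.comm y hy hy')
    · have hg' : ¬ GoodRed A r (W₂⁄k) (σ x) (σ y) := fun h' => hg ((goodRed_apply_iff τ hσ).mp h')
      rw [redFun_some_of_not_goodRed _ hg, redFun_some_of_not_goodRed _ hg', map_zero]

omit [DecidableEq k] in
theorem inE0_smul_iff (σ : K ≃ₐ[S] K) (τ : k →ₐ[S₂] k) (hσ : Induces A r σ τ)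
    (P : (W'⁄K).Point) :
    InE0 A r (W'⁄K) (W₂⁄k) (σ • P) ↔ InE0 A r (W'⁄K) (W₂⁄k) P := by
  rcases P with _ | ⟨x, y, h⟩
  · exact Iff.rfl
  · rw [Inertia.smul_some, inE0_some_iff, inE0_some_iff, goodRed_apply_iff τ hσ,
      hσ.mem_iff]

end Frobenius

/-! ### Instances of `Induces` -/

section Instances

variable {F : Type*} [Field F] [Algebra F K]

omit [DecidableEq K] in
/-- Elements of the inertia group induce the identity on `k`. -/
theorem induces_id_of_mem_inertia (hr : KillsMax r) {σ : K ≃ₐ[F] K}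
    (hσ : σ ∈ A.inertiaSubgroupIn F) : Induces A r σ id := by
  have hI := Asm.isInertial_of_mem A hσ
  refine ⟨hI.mem_iff, fun a ha ha' => ?_⟩
  have h1 := hI.sub_mem a ha
  have h2 : (((⟨σ a, ha'⟩ : ↥A) - ⟨a, ha⟩ : ↥A) : K) ∈ A.nonunits := h1
  rw [ValuationSubring.coe_mem_nonunits_iff] at h2
  have h3 := hr _ h2
  rw [map_sub, sub_eq_zero] at h3
  exact h3

omit [DecidableEq K] in
/-- A Frobenius element at `ℓ` induces `x ↦ x ^ ℓ` on the residue field. -/
theorem induces_pow_of_isFrobeniusAt {σ : K ≃ₐ[F] K} {ℓ : ℕ} (hσ : A.IsFrobeniusAt σ ℓ) :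
    Induces A (IsLocalRing.residue ↥A) σ (fun x => x ^ ℓ) := by
  have hdec := hσ.mem_decompositionSubgroup
  refine ⟨Inertia.apply_mem_iff_of_mem_decompositionSubgroup A hdec, fun a ha ha' => ?_⟩
  have := hσ.smul_residue_eq (IsLocalRing.residue ↥A ⟨a, ha⟩)
  rw [← this]
  rfl

end Instances

end Fermat.Agent.S58.EC.Red.Equivariant
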