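/-
S58 / block EC-R (helper21): the `CurveRed` hypothesis for a Weierstrass curve over `ℤ`.

For `W : WeierstrassCurve ℤ`, a field `K` which is a `ℚ`-algebra, a valuation subring `A` of `K`,
and any ring homomorphism `r : ↥A →+* k`: the curve `(W.map (Int.castRingHom ℚ))⁄K` (the shape
used by the prelude's `ModRepIsIrreducible`) reduces to `W.map (Int.castRingHom k)`, and to
`(W.reductionMod ℓ)⁄k` when `k` is a `ZMod ℓ`-algebra.
-/
import Mathlib
import Fermat.Agent.S58.EC.Red.Basic
import Fermat.Prelude.Def_FLTPrelim_Modularity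

set_option autoImplicit false

namespace Fermat.Agent.S58.EC.Red.IntModel

open WeierstrassCurve WeierstrassCurve.Affine Fermat.Agent.S58.EC.Red.Basic

variable {K : Type*} [Field K] (A : ValuationSubring K) {k : Type*} [Field k] (r : ↥A →+* k)
  (W : WeierstrassCurve ℤ)

/-- The integral model over `↥A`. -/
theorem curveRed_int :
    CurveRed A r (W.map (Int.castRingHom K)).toAffine (W.map (Int.castRingHom k)).toAffine := by
  refine ⟨W.map (Int.castRingHom ↥A), ?_, ?_⟩
  · rw [WeierstrassCurve.map_map]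
    congr 1
  · rw [WeierstrassCurve.map_map]
    congr 1
    exact RingHom.ext_int _ _

/-- The shape of the prelude: `(W.map (Int.castRingHom ℚ))⁄K`. -/
theorem baseChange_rat_eq [Algebra ℚ K] :
    ((W.map (Int.castRingHom ℚ)).toAffine⁄K) = (W.map (Int.castRingHom K)).toAffine := by
  change (W.map (Int.castRingHom ℚ)).map (algebraMap ℚ K) = W.map (Int.castRingHom K)
  rw [WeierstrassCurve.map_map]
  congr 1
  exact RingHom.ext_int _ _

/-- The shape of the prelude's `reductionMod`: `(W.reductionMod ℓ)⁄k`. -/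
theorem baseChange_reductionMod_eq (ℓ : ℕ) [Algebra (ZMod ℓ) k] :
    ((W.reductionMod ℓ).toAffine⁄k) = (W.map (Int.castRingHom k)).toAffine := by
  change (W.map (Int.castRingHom (ZMod ℓ))).map (algebraMap (ZMod ℓ) k) =
    W.map (Int.castRingHom k)
  rw [WeierstrassCurve.map_map]
  congr 1
  exact RingHom.ext_int _ _

/-- **`CurveRed` for the prelude shapes**: `(W.map (Int.castRingHom ℚ))⁄K` reduces to
`(W.reductionMod ℓ)⁄k` along any `r : ↥A →+* k`. -/
theorem curveRed_rat_reductionMod [Algebra ℚ K] (ℓ : ℕ) [Algebra (ZMod ℓ) k] :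
    CurveRed A r ((W.map (Int.castRingHom ℚ)).toAffine⁄K) ((W.reductionMod ℓ).toAffine⁄k) := by
  rw [baseChange_rat_eq, baseChange_reductionMod_eq]
  exact curveRed_int A r W

/-- `CurveRed` with the bare reduced curve `W.map (Int.castRingHom k)`. -/
theorem curveRed_rat [Algebra ℚ K] :
    CurveRed A r ((W.map (Int.castRingHom ℚ)).toAffine⁄K) (W.map (Int.castRingHom k)).toAffine := by
  rw [baseChange_rat_eq]
  exact curveRed_int A r W

/-- The discriminant of the reduced curve. -/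
theorem Δ_map_intCast : (W.map (Int.castRingHom k)).Δ = ((W.Δ : ℤ) : k) := by
  rw [WeierstrassCurve.map_Δ]; rfl

/-- Good reduction: if `ℓ ∤ Δ` and `k` has characteristic `ℓ`, the reduced curve is nonsingular. -/
theorem Δ_map_ne_zero {ℓ : ℕ} [CharP k ℓ] (h : ¬ (ℓ : ℤ) ∣ W.Δ) :
    (W.map (Int.castRingHom k)).Δ ≠ 0 := by
  rw [Δ_map_intCast, Ne, CharP.intCast_eq_zero_iff k ℓ]
  exact h

theorem Δ_reductionMod_baseChange_ne_zero {ℓ : ℕ} [CharP k ℓ] [Algebra (ZMod ℓ) k]
    (h : ¬ (ℓ : ℤ) ∣ W.Δ) : ((W.reductionMod ℓ).toAffine⁄k).Δ ≠ 0 := by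
  rw [baseChange_reductionMod_eq]
  exact Δ_map_ne_zero W h

/-- The `c₄` of the reduced curve. -/
theorem c₄_map_intCast : (W.map (Int.castRingHom k)).c₄ = ((W.c₄ : ℤ) : k) := by
  rw [WeierstrassCurve.map_c₄]; rfl

theorem Δ_rat_baseChange_ne_zero [Algebra ℚ K] [CharZero K] (h : W.Δ ≠ 0) :
    ((W.map (Int.castRingHom ℚ)).toAffine⁄K).Δ ≠ 0 := by
  rw [baseChange_rat_eq, Δ_map_intCast]
  exact_mod_cast h

end Fermat.Agent.S58.EC.Red.IntModel
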