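/-
S58 / block EC-R (helper21): lifting points along the reduction map.

If `K` is algebraically closed and `r : ↥A →+* k` is surjective, every point of `Wk` (i.e. every
NONSINGULAR point of the reduced cubic) is the reduction of a point of `E0`.
-/
import Mathlib
import Fermat.Agent.S58.EC.Red.Add

set_option autoImplicit false

namespace Fermat.Agent.S58.EC.Red.Lift

open WeierstrassCurve WeierstrassCurve.Affine Polynomial
open Fermat.Agent.S58.EC.Red.Basic Fermat.Agent.S58.EC.Red.Add

variable {K : Type*} [Field K] {A : ValuationSubring K} {k : Type*} [Field k] {r : ↥A →+* k}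

/-- A solution of the reduced equation lifts to a solution with given integral `x`. -/
theorem exists_lift_y [IsAlgClosed K] (WA : WeierstrassCurve ↥A) (x : ↥A) {ybar : k}
    (h : (WA.map r).toAffine.Equation (r x) ybar) :
    ∃ y : ↥A, (WA.map A.subtype).toAffine.Equation (x : K) y ∧ r y = ybar := by
  -- a root of the quadratic
  set b : K := (WA.a₁ : K) * x + WA.a₃ with hb
  set c : K := -((x : K) ^ 3 + (WA.a₂ : K) * x ^ 2 + (WA.a₄ : K) * x + WA.a₆) with hc
  have hdeg : (C (1 : K) * X ^ 2 + C b * X + C c).degree ≠ 0 := by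
    rw [degree_quadratic one_ne_zero]; decide
  obtain ⟨y₁, hy₁⟩ := IsAlgClosed.exists_root _ hdeg
  have he₁ : (WA.map A.subtype).toAffine.Equation (x : K) y₁ := by
    rw [Affine.equation_iff]
    simp only [WeierstrassCurve.map_a₁, WeierstrassCurve.map_a₂, WeierstrassCurve.map_a₃,
      WeierstrassCurve.map_a₄, WeierstrassCurve.map_a₆, ValuationSubring.subtype_apply]
    simp only [IsRoot.def, eval_add, eval_mul, eval_C, eval_pow, eval_X, hb, hc] at hy₁
    linear_combination hy₁
  have hyA : y₁ ∈ A := y_mem_of_equation WA he₁ x.2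
  obtain ⟨y₁, rfl⟩ : ∃ a : ↥A, (a : K) = y₁ := ⟨⟨y₁, hyA⟩, rfl⟩
  have hred := equation_red r WA he₁
  rcases Affine.Y_eq_of_X_eq h hred rfl with h1 | h1
  · exact ⟨y₁, he₁, h1.symm⟩
  · refine ⟨WA.toAffine.negY x y₁, ?_, ?_⟩
    · have e : (WA.map A.subtype).toAffine.negY (x : K) y₁ = ((WA.toAffine.negY x y₁ : ↥A) : K) :=
        Affine.map_negY (W' := WA.toAffine) A.subtype x y₁
      rw [← e]
      exact (Affine.equation_neg ..).mpr he₁
    · rw [h1, Affine.map_negY]

/-- An integral solution whose reduction is nonsingular is nonsingular. -/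
theorem nonsingular_of_red (WA : WeierstrassCurve ↥A) {x y : ↥A}
    (he : (WA.map A.subtype).toAffine.Equation (x : K) y)
    (hns : (WA.map r).toAffine.Nonsingular (r x) (r y)) :
    (WA.map A.subtype).toAffine.Nonsingular (x : K) y := by
  rw [Affine.nonsingular_iff'] at hns ⊢
  refine ⟨he, ?_⟩
  simp only [WeierstrassCurve.map_a₁, WeierstrassCurve.map_a₂, WeierstrassCurve.map_a₃,
    WeierstrassCurve.map_a₄] at hns ⊢
  rcases hns.2 with h1 | h1
  · left
    intro h0
    apply h1
    have h2 : WA.a₁ * y - (3 * x ^ 2 + 2 * WA.a₂ * x + WA.a₄) = 0 := by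
      apply Subtype.val_injective
      have e3 : ((3 : ↥A) : K) = 3 := rfl
      have e2 : ((2 : ↥A) : K) = 2 := rfl
      simpa [e3, e2] using h0
    have := congrArg r h2
    simpa [map_ofNat] using this
  · right
    intro h0
    apply h1
    have h2 : 2 * y + WA.a₁ * x + WA.a₃ = 0 := by
      apply Subtype.val_injective
      have e2 : ((2 : ↥A) : K) = 2 := rfl
      simpa [e2] using h0
    have := congrArg r h2
    simpa [map_ofNat] using this

variable {W : Affine K} {Wk : Affine k}

/-- **Lifting**: every point of the reduced curve is the reduction of a point of `E0`. -/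
theorem exists_redFun_eq [IsAlgClosed K] (hsurj : Function.Surjective r)
    (hW : CurveRed A r W Wk) (Q : Wk.Point) :
    ∃ P : W.Point, InE0 A r W Wk P ∧ redFun A r W Wk P = Q := by
  rcases Q with _ | ⟨xbar, ybar, hns⟩
  · exact ⟨0, trivial, rfl⟩
  · obtain ⟨WA, rfl, rfl⟩ := hW
    obtain ⟨x, rfl⟩ := hsurj xbar
    obtain ⟨y, he, rfl⟩ := exists_lift_y WA x hns.1
    have h := nonsingular_of_red WA he hns
    refine ⟨Point.some _ _ h, Or.inr (goodRed_coe_iff.mpr hns), ?_⟩
    exact redFun_coe h hns

/-- Surjectivity of the reduction homomorphism. -/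
theorem red_surjective [IsAlgClosed K] [DecidableEq K] [DecidableEq k] (hr : KillsMax r)
    (hsurj : Function.Surjective r) (hW : CurveRed A r W Wk) :
    Function.Surjective (red hr hW) := by
  intro Q
  obtain ⟨P, hP, hPQ⟩ := exists_redFun_eq hsurj hW Q
  exact ⟨⟨P, hP⟩, hPQ⟩

end Fermat.Agent.S58.EC.Red.Lift
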